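/-
GATE-E (S59) / block E8.3c = CASE B at `p = 3` (helper24; claims row GE8-3C-NOT3-CORE), file 4.

**No elliptic element of order `3` in `Γ₀(N)` when a prime `r ≡ 2 (3)` divides `N`**, in the spelling
of the `U`-alternative of `CoresModel3.CycQuot3` / `CycPlug3`:

  `no_conj_U_mem : r prime, r ∣ N, r % 3 = 2, Γ ≤ Γ₀(N)  ⟹  ∀ g, g⁻¹ * (S * T) * g ∉ Γ`.

Proof: `M = g⁻¹ (S T) g` has trace `1` and determinant `1`; if its lower left entry vanishes mod `r`
then `a := M₀₀` satisfies `a² - a + 1 ≡ 0 (r)`, so `u := -a` has `u³ = 1`, `u ≠ 1` (`r ≠ 3`), and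
Fermat's little theorem `u^(r-1) = 1` with `r - 1 ≡ 1 (3)` gives `u = 1`.

(`r = 2` is allowed.  The auxiliary primes of `GL/AuxPrime.exists_aux_prime` are `≡ 11 (12)`, so
`≡ 2 (3)`.)
-/
import Mathlib

set_option autoImplicit false

open scoped MatrixGroups
open ModularGroup Matrix

namespace Fermat.Agent.GE8.CaseB3.UFree

/-- the trace of `U = S T` is `1` -/
theorem trace_ST : Matrix.trace ((S * T : SL(2,ℤ)) : Matrix (Fin 2) (Fin 2) ℤ) = 1 := by
  rw [Matrix.SpecialLinearGroup.coe_mul, ModularGroup.coe_S, ModularGroup.coe_T, Matrix.trace_fin_two]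
  simp [Matrix.mul_apply, Fin.sum_univ_two]

/-- conjugation does not change the trace -/
theorem trace_conj (g U : SL(2,ℤ)) :
    Matrix.trace ((g⁻¹ * U * g : SL(2,ℤ)) : Matrix (Fin 2) (Fin 2) ℤ) =
      Matrix.trace (U : Matrix (Fin 2) (Fin 2) ℤ) := by
  rw [Matrix.SpecialLinearGroup.coe_mul, Matrix.trace_mul_comm, ← Matrix.SpecialLinearGroup.coe_mul,
    ← mul_assoc, mul_inv_cancel, one_mul]

/-- **a root of `a² - a + 1` modulo a prime `r ≡ 2 (3)` does not exist** -/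
theorem no_root {r : ℕ} (hr : r.Prime) (hr3 : r % 3 = 2) (a : ZMod r) (ha : a * a - a + 1 = 0) :
    False := by
  have : Fact r.Prime := ⟨hr⟩
  set u : ZMod r := -a with hu
  have hu3 : u ^ 3 = 1 := by
    rw [hu]
    linear_combination (-a - 1) * ha
  have hu0 : u ≠ 0 := by
    intro h0
    rw [h0] at hu3
    simp at hu3
  -- `u ≠ 1` since `r ≠ 3`
  have hu1 : u ≠ 1 := by
    intro h1
    have ha1 : a = -1 := by rw [← neg_neg a, ← hu, h1]
    rw [ha1] at ha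
    have h3 : ((3 : ℕ) : ZMod r) = 0 := by
      push_cast
      linear_combination ha
    rw [ZMod.natCast_eq_zero_iff] at h3
    have : r = 3 := (Nat.prime_dvd_prime_iff_eq hr Nat.prime_three).1 h3
    omega
  -- Fermat
  have hF : u ^ (r - 1) = 1 := ZMod.pow_card_sub_one_eq_one hu0
  obtain ⟨k, hk⟩ : ∃ k, r - 1 = 3 * k + 1 := ⟨(r - 1) / 3, by omega⟩
  rw [hk, pow_succ, pow_mul, hu3, one_pow, one_mul] at hF
  exact hu1 hF

/-- **no conjugate of `U = S T` lies in a subgroup of `Γ₀(N)`** when a prime `r ≡ 2 (3)` divides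
`N`. -/
theorem no_conj_U_mem {N r : ℕ} (hr : r.Prime) (hrN : r ∣ N) (hr3 : r % 3 = 2)
    {Γ : Subgroup SL(2,ℤ)} (hΓ : Γ ≤ CongruenceSubgroup.Gamma0 N) (g : SL(2,ℤ)) :
    g⁻¹ * (S * T) * g ∉ Γ := by
  intro hmem
  set M : SL(2,ℤ) := g⁻¹ * (S * T) * g with hM
  have hc : ((M 1 0 : ℤ) : ZMod N) = 0 := CongruenceSubgroup.Gamma0_mem.1 (hΓ hmem)
  have hcr : ((M 1 0 : ℤ) : ZMod r) = 0 := by
    rw [ZMod.intCast_zmod_eq_zero_iff_dvd] at hc ⊢
    exact dvd_trans (Int.natCast_dvd_natCast.2 hrN) hc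
  have htr : M 0 0 + M 1 1 = 1 := by
    have h1 := trace_conj g (S * T)
    rw [trace_ST, Matrix.trace_fin_two] at h1
    exact h1
  have hdet : M 0 0 * M 1 1 - M 0 1 * M 1 0 = 1 := by
    have h1 := Matrix.SpecialLinearGroup.det_coe M
    rw [Matrix.det_fin_two] at h1
    exact h1
  refine no_root hr hr3 ((M 0 0 : ℤ) : ZMod r) ?_
  have h2 : ((M 0 0 * M 1 1 - M 0 1 * M 1 0 : ℤ) : ZMod r) = 1 := by rw [hdet]; simp
  have h3 : ((M 0 0 + M 1 1 : ℤ) : ZMod r) = 1 := by rw [htr]; simp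
  push_cast at h2 h3
  rw [hcr, mul_zero, sub_zero] at h2
  have hd : ((M 1 1 : ℤ) : ZMod r) = 1 - ((M 0 0 : ℤ) : ZMod r) := by linear_combination h3
  rw [hd] at h2
  linear_combination -h2

end Fermat.Agent.GE8.CaseB3.UFree
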