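/-
GATE-E (S59) / block E8.3c = CASE B at `p = 3` (helper24; claims row GE8-3C-NOT3-CORE), file 1.

Twin of `GB/B3/TorsorModel.lean` (helper22) with the hypothesis `not3 : ¬ 3 ∣ q` of `DeckCyc` weakened
to `hU3 : ¬ 3 ∣ q ∨ ∀ x : X, D.U x ≠ x` (helper86's audit, board 6754 [R3]): `not3` is consumed at ONE
place, the lifting of `U`-invariants of `X → ℤ` to `U`-invariants of `X' → ℤ`; when `U` acts FREELY
on the base `X` (no elliptic point of order `3`: an auxiliary prime `r ≡ 2 (3)` in the level) the
lifting holds for EVERY odd `q`, in particular `q = 3^n`: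

  choose an indicator `e : X → ℤ` of a transversal of the `U`-orbits (`e x + e (U x) + e (U² x) = 1`),
  lift `e · g` to `f₀` along the fibre sums, and put `f = f₀ + f₀ ∘ U' + f₀ ∘ U'²`.

Everything else is helper22's file verbatim (`deckM` is reused from it):

* `pushB_surjective`, `pushB_eq_zero_iff`, `pullB_pushB`, `pullB_injective`, `norm_eq_zero_iff`
  for `h : DeckCyc3 π δ q`;
* `DeckCyc3.of_deckCyc` : a `DeckCyc` is a `DeckCyc3`.
-/
import Mathlib
import Fermat.Agent.GM.PD.Functorial
import Fermat.Agent.GB.B3.TorsorModel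

set_option autoImplicit false
set_option linter.unusedSectionVars false

namespace Fermat.Agent.GE8.CaseB3.TorsorModel3

open Fermat.Agent.GM.PD Fermat.Agent.GB.B3.TorsorModel

variable {X X' : Type*} [Fintype X] [Fintype X'] [DecidableEq X] [DecidableEq X']
variable {D' : SUData X'} {D : SUData X}

/-! ### a transversal of the orbits of a free permutation of order three -/

/-- **Indicator of a transversal**: if `U³ = 1` and `U` has no fixed point, there is `e : X → ℤ` with
`e x + e (U x) + e (U² x) = 1` for all `x`. -/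
theorem exists_orbit_indicator {Y : Type*} (U : Equiv.Perm Y) (hU : ∀ x, U (U (U x)) = x)
    (hfree : ∀ x, U x ≠ x) : ∃ e : Y → ℤ, ∀ x, e x + e (U x) + e (U (U x)) = 1 := by
  classical
  -- the orbit relation
  let s : Setoid Y :=
    { r := fun x y => y = x ∨ y = U x ∨ y = U (U x)
      iseqv :=
        { refl := fun x => Or.inl rfl
          symm := by
            rintro x y (rfl | rfl | rfl)
            · exact Or.inl rfl
            · exact Or.inr (Or.inr (hU x).symm)
            · exact Or.inr (Or.inl (hU x).symm)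
          trans := by
            rintro x y z (rfl | rfl | rfl) (rfl | rfl | rfl)
            · exact Or.inl rfl
            · exact Or.inr (Or.inl rfl)
            · exact Or.inr (Or.inr rfl)
            · exact Or.inr (Or.inl rfl)
            · exact Or.inr (Or.inr rfl)
            · exact Or.inl (hU x)
            · exact Or.inr (Or.inr rfl)
            · exact Or.inl (hU x)
            · exact Or.inr (Or.inl (by rw [hU x])) } }
  let rep : Y → Y := fun x => (Quotient.mk s x).out
  have hrep : ∀ x, rep x = x ∨ rep x = U x ∨ rep x = U (U x) := by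
    intro x
    have h1 : s.r (rep x) x := Quotient.exact (Quotient.out_eq (Quotient.mk s x))
    generalize rep x = r at h1 ⊢
    rcases h1 with h1 | h1 | h1
    · exact Or.inl h1.symm
    · refine Or.inr (Or.inr ?_)
      rw [h1, hU]
    · refine Or.inr (Or.inl ?_)
      rw [h1, hU]
  have hrepU : ∀ x, rep (U x) = rep x := by
    intro x
    have : Quotient.mk s (U x) = Quotient.mk s x :=
      Quotient.sound (Or.inr (Or.inr (hU x).symm))
    show (Quotient.mk s (U x)).out = (Quotient.mk s x).out
    rw [this]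
  have h01 : ∀ x, U x ≠ x := hfree
  have h12 : ∀ x, U (U x) ≠ U x := fun x => hfree (U x)
  have h02 : ∀ x, U (U x) ≠ x := by
    intro x h
    apply hfree x
    have := congrArg U h
    rw [hU] at this
    exact this.symm
  refine ⟨fun x => if rep x = x then 1 else 0, fun x => ?_⟩
  show (if rep x = x then (1 : ℤ) else 0) + (if rep (U x) = U x then 1 else 0) +
    (if rep (U (U x)) = U (U x) then 1 else 0) = 1
  rw [hrepU (U x), hrepU x]
  rcases hrep x with h | h | h
  · rw [if_pos h, if_neg (by rw [h]; exact (h01 x).symm), if_neg (by rw [h]; exact (h02 x).symm)]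
    norm_num
  · rw [if_neg (by rw [h]; exact h01 x), if_pos h, if_neg (by rw [h]; exact (h12 x).symm)]
    norm_num
  · rw [if_neg (by rw [h]; exact h02 x), if_neg (by rw [h]; exact h12 x), if_pos h]
    norm_num


/-- **Cyclic deck data, `3 ∣ q` allowed**: `δ` generates a free cyclic group of deck permutations of
the `(S,U)`-equivariant surjection `π`, of ODD order `q`, transitive on the fibres; either `q` is
prime to `3` or `U` acts freely on the base `X`. -/
structure DeckCyc3 (π : SUHom D' D) (δ : Equiv.Perm X') (q : ℕ) : Prop where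
  surj : Function.Surjective π.toFun
  comm_S : ∀ x, δ (D'.S x) = D'.S (δ x)
  comm_U : ∀ x, δ (D'.U x) = D'.U (δ x)
  fib : ∀ x, π.toFun (δ x) = π.toFun x
  orb : ∀ x y, π.toFun x = π.toFun y → ∃ j : ℕ, (δ ^ j) x = y
  ord : δ ^ q = 1
  free : ∀ (x : X') (j : ℕ), 0 < j → j < q → (δ ^ j) x ≠ x
  odd : ¬ 2 ∣ q
  hU3 : ¬ 3 ∣ q ∨ ∀ x : X, D.U x ≠ x

namespace DeckCyc3

variable {π : SUHom D' D} {δ : Equiv.Perm X'} {q : ℕ} (h : DeckCyc3 π δ q)
include h

theorem q_pos : 0 < q :=
  Nat.pos_of_ne_zero (fun h0 => h.odd (h0 ▸ dvd_zero 2))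

theorem fib_pow (j : ℕ) (x : X') : π.toFun ((δ ^ j) x) = π.toFun x := by
  induction j generalizing x with
  | zero => simp
  | succ j ih => rw [pow_succ, Equiv.Perm.mul_apply, ih, h.fib]

theorem pow_mod (j : ℕ) : δ ^ (j % q) = δ ^ j := (pow_eq_pow_mod j h.ord).symm

theorem orb_lt (x y : X') (hxy : π.toFun x = π.toFun y) : ∃ j, j < q ∧ (δ ^ j) x = y := by
  obtain ⟨j, hj⟩ := h.orb x y hxy
  exact ⟨j % q, Nat.mod_lt _ h.q_pos, by rw [h.pow_mod]; exact hj⟩

theorem pow_inj_of_lt (x : X') {i j : ℕ} (hi : i < q) (hj : j < q)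
    (hij : (δ ^ i) x = (δ ^ j) x) : i = j := by
  by_contra hne
  rcases Nat.lt_or_gt_of_ne hne with hlt | hlt
  · have h1 : (δ ^ (j - i)) ((δ ^ i) x) = (δ ^ i) x := by
      rw [← Equiv.Perm.mul_apply, ← pow_add, Nat.sub_add_cancel hlt.le, hij]
    exact h.free _ (j - i) (Nat.sub_pos_of_lt hlt) (by omega) h1
  · have h1 : (δ ^ (i - j)) ((δ ^ j) x) = (δ ^ j) x := by
      rw [← Equiv.Perm.mul_apply, ← pow_add, Nat.sub_add_cancel hlt.le, hij]
    exact h.free _ (i - j) (Nat.sub_pos_of_lt hlt) (by omega) h1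

/-- the fibre of `π` through `x` is the `δ`-orbit of `x` -/
theorem filter_fibre (x : X') :
    (Finset.univ.filter fun y => π.toFun y = π.toFun x) =
      (Finset.range q).image (fun j => (δ ^ j) x) := by
  ext y
  simp only [Finset.mem_filter, Finset.mem_univ, true_and, Finset.mem_image, Finset.mem_range]
  constructor
  · intro hy
    exact h.orb_lt x y hy.symm
  · rintro ⟨j, _, rfl⟩
    exact h.fib_pow j x

/-- **fibre sums are orbit sums** -/
theorem pushM_apply_proj (m' : X' → ℤ) (x : X') :
    pushM π.toFun m' (π.toFun x) = ∑ j ∈ Finset.range q, m' ((δ ^ j) x) := by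
  rw [pushM_apply, ← Finset.sum_filter, h.filter_fibre x, Finset.sum_image]
  intro i hi j hj hij
  exact h.pow_inj_of_lt x (Finset.mem_range.1 hi) (Finset.mem_range.1 hj) hij

/-- all fibres have `q` elements -/
theorem card_fibre (x : X) : (Finset.univ.filter fun x' => π.toFun x' = x).card = q := by
  obtain ⟨x', rfl⟩ := h.surj x
  rw [h.filter_fibre x', Finset.card_image_of_injOn, Finset.card_range]
  intro i hi j hj hij
  exact h.pow_inj_of_lt x' (Finset.mem_range.1 hi) (Finset.mem_range.1 hj) hij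

/-- a section of `π` -/
noncomputable def sec (x : X) : X' := (h.surj x).choose

theorem proj_sec (x : X) : π.toFun (h.sec x) = x := (h.surj x).choose_spec

/-! ### surjectivity of fibre sums, also on invariants -/

theorem pushM_surjective : Function.Surjective (pushM π.toFun) := by
  intro g
  refine ⟨fun y => if y = h.sec (π.toFun y) then g (π.toFun y) else 0, ?_⟩
  funext x
  rw [pushM_apply, Finset.sum_eq_single (h.sec x)]
  · simp [h.proj_sec]
  · intro y _ hy
    by_cases h1 : π.toFun y = x
    · rw [if_pos h1]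
      by_cases h2 : y = h.sec (π.toFun y)
      · exact absurd (h2.trans (by rw [h1])) hy
      · rw [if_neg h2]
    · rw [if_neg h1]
  · intro hx
    exact absurd (Finset.mem_univ _) hx

theorem pushM_deckM (m' : X' → ℤ) : pushM π.toFun (deckM δ m') = pushM π.toFun m' := by
  have := pushM_comp_perm π.toFun δ (1 : Equiv.Perm X) (fun x' => h.fib x') m'
  change pushM π.toFun (m' ∘ δ) = _
  rw [this]
  rfl

theorem pushM_pullM_eq (g : X → ℤ) : pushM π.toFun (pullM π.toFun g) = (q : ℤ) • g :=
  pushM_pullM π.toFun q h.card_fibre g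

/-- `S`-invariants lift to `S`-invariants (`q` is odd). -/
theorem exists_invS_lift {g : X → ℤ} (hg : g ∈ invSub D.S) :
    ∃ f ∈ invSub D'.S, pushM π.toFun f = g := by
  obtain ⟨f0, hf0⟩ := h.pushM_surjective g
  have hcop : IsCoprime (2 : ℤ) (q : ℤ) := by
    have : Nat.Coprime 2 q := (Nat.Prime.coprime_iff_not_dvd Nat.prime_two).2 h.odd
    exact_mod_cast Nat.isCoprime_iff_coprime.2 this
  obtain ⟨a, b, hab⟩ := hcop
  have hgS : g ∘ D.S = g := funext hg
  refine ⟨a • (f0 + f0 ∘ D'.S) + b • pullM π.toFun g, ?_, ?_⟩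
  · intro y
    simp only [Pi.add_apply, Pi.smul_apply, Function.comp_apply, pullM_apply, D'.hS, π.map_S,
      hg (π.toFun y), smul_eq_mul]
    ring
  · rw [map_add, map_smul, map_smul, map_add, pushM_comp_S, hf0, hgS, h.pushM_pullM_eq]
    funext x
    simp only [Pi.add_apply, Pi.smul_apply, smul_eq_mul]
    linear_combination (g x) * hab

/-- `U`-invariants lift to `U`-invariants: `q` prime to `3` (Bezout), or `U` free on `X` (lift
`e · g` for an indicator `e` of a transversal of the `U`-orbits and sum over the `U`-orbit). -/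
theorem exists_invU_lift {g : X → ℤ} (hg : g ∈ invSub D.U) :
    ∃ f ∈ invSub D'.U, pushM π.toFun f = g := by
  have hgU : g ∘ D.U = g := funext hg
  rcases h.hU3 with h3 | hfree
  · obtain ⟨f0, hf0⟩ := h.pushM_surjective g
    have hcop : IsCoprime (3 : ℤ) (q : ℤ) := by
      have : Nat.Coprime 3 q := (Nat.Prime.coprime_iff_not_dvd Nat.prime_three).2 h3
      exact_mod_cast Nat.isCoprime_iff_coprime.2 this
    obtain ⟨a, b, hab⟩ := hcop
    refine ⟨a • (f0 + f0 ∘ D'.U + (f0 ∘ D'.U) ∘ D'.U) + b • pullM π.toFun g, ?_, ?_⟩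
    · intro y
      simp only [Pi.add_apply, Pi.smul_apply, Function.comp_apply, pullM_apply, D'.hU, π.map_U,
        hg (π.toFun y), smul_eq_mul]
      ring
    · simp only [map_add, map_smul, pushM_comp_U, hf0, hgU, h.pushM_pullM_eq]
      funext x
      simp only [Pi.add_apply, Pi.smul_apply, smul_eq_mul]
      linear_combination (g x) * hab
  · obtain ⟨e, he⟩ := exists_orbit_indicator D.U D.hU hfree
    obtain ⟨f0, hf0⟩ := h.pushM_surjective (fun x => e x * g x)
    refine ⟨f0 + f0 ∘ D'.U + (f0 ∘ D'.U) ∘ D'.U, ?_, ?_⟩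
    · intro y
      simp only [Pi.add_apply, Function.comp_apply, D'.hU]
      ring
    · simp only [map_add, pushM_comp_U, hf0]
      funext x
      simp only [Pi.add_apply, Function.comp_apply, hg x, hg (D.U x)]
      linear_combination (g x) * he x

/-- `C = M^S + M^U` lifts. -/
theorem exists_cSub_lift {g : X → ℤ} (hg : g ∈ cSub D) :
    ∃ f ∈ cSub D', pushM π.toFun f = g := by
  obtain ⟨s, hs, u, hu, rfl⟩ := Submodule.mem_sup.1 hg
  obtain ⟨fs, hfs, hs'⟩ := h.exists_invS_lift hs
  obtain ⟨fu, hfu, hu'⟩ := h.exists_invU_lift hu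
  exact ⟨fs + fu, Submodule.add_mem _ (Submodule.mem_sup_left hfs) (Submodule.mem_sup_right hfu),
    by rw [map_add, hs', hu']⟩

/-! ### the kernel of fibre sums -/

theorem exists_idx (y : X') : ∃ j, j < q ∧ (δ ^ j) (h.sec (π.toFun y)) = y :=
  h.orb_lt _ _ (h.proj_sec _)

/-- the position of `y` in its orbit, counted from the base point `sec (π y)` -/
noncomputable def idx (y : X') : ℕ := (h.exists_idx y).choose

theorem idx_lt (y : X') : h.idx y < q := (h.exists_idx y).choose_spec.1

theorem pow_idx (y : X') : (δ ^ (h.idx y)) (h.sec (π.toFun y)) = y :=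
  (h.exists_idx y).choose_spec.2

theorem idx_unique (y : X') {j : ℕ} (hj : j < q) (hjy : (δ ^ j) (h.sec (π.toFun y)) = y) :
    h.idx y = j :=
  h.pow_inj_of_lt _ (h.idx_lt y) hj ((h.pow_idx y).trans hjy.symm)

/-- **the kernel of the fibre sums is `(δ - 1) M'`** -/
theorem exists_of_pushM_eq_zero {m' : X' → ℤ} (hm : pushM π.toFun m' = 0) :
    ∃ n' : X' → ℤ, m' = deckM δ n' - n' := by
  refine ⟨fun y => ∑ i ∈ Finset.range (h.idx y), m' ((δ ^ i) (h.sec (π.toFun y))), ?_⟩
  funext y
  simp only [Pi.sub_apply, deckM_apply]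
  have hfy : π.toFun (δ y) = π.toFun y := h.fib y
  set s := h.sec (π.toFun y) with hs
  have hsum : ∑ i ∈ Finset.range q, m' ((δ ^ i) s) = 0 := by
    rw [← h.pushM_apply_proj m' s, hm]
    rfl
  by_cases hlast : h.idx y + 1 < q
  · have h1 : h.idx (δ y) = h.idx y + 1 := by
      apply h.idx_unique (δ y) hlast
      rw [hfy, pow_succ', Equiv.Perm.mul_apply, ← hs, h.pow_idx y]
    rw [hfy, h1, Finset.sum_range_succ, ← hs, h.pow_idx y]
    ring
  · have hq : h.idx y + 1 = q := by have := h.idx_lt y; omega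
    have h1 : h.idx (δ y) = 0 := by
      apply h.idx_unique (δ y) h.q_pos
      rw [hfy, pow_zero, Equiv.Perm.one_apply, ← hs]
      have h2 : (δ ^ q) s = s := by rw [h.ord]; rfl
      rw [← hq, pow_succ', Equiv.Perm.mul_apply, h.pow_idx y] at h2
      exact h2.symm
    rw [hfy, h1, Finset.sum_range_zero]
    rw [← hq, Finset.sum_range_succ, h.pow_idx y] at hsum
    linarith

/-! ### the `B`-model -/

theorem deckM_mem_invS {m : X' → ℤ} (hm : m ∈ invSub D'.S) : deckM δ m ∈ invSub D'.S := by
  intro y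
  rw [deckM_apply, deckM_apply, h.comm_S, hm (δ y)]

theorem deckM_mem_invU {m : X' → ℤ} (hm : m ∈ invSub D'.U) : deckM δ m ∈ invSub D'.U := by
  intro y
  rw [deckM_apply, deckM_apply, h.comm_U, hm (δ y)]

theorem deckM_mem_cSub {m : X' → ℤ} (hm : m ∈ cSub D') : deckM δ m ∈ cSub D' := by
  obtain ⟨s, hs, u, hu, rfl⟩ := Submodule.mem_sup.1 hm
  rw [map_add]
  exact Submodule.add_mem _ (Submodule.mem_sup_left (h.deckM_mem_invS hs))
    (Submodule.mem_sup_right (h.deckM_mem_invU hu))

/-- the deck action on the `B`-model `H¹` -/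
def deckB : BQ D' →ₗ[ℤ] BQ D' :=
  (cSub D').mapQ (cSub D') (deckM δ) (fun _ hm => h.deckM_mem_cSub hm)

@[simp] theorem deckB_mk (m : X' → ℤ) :
    h.deckB (Submodule.Quotient.mk m) = Submodule.Quotient.mk (deckM δ m) := rfl

theorem deckB_pow_mk (j : ℕ) (m : X' → ℤ) :
    (h.deckB ^ j) (Submodule.Quotient.mk m) = Submodule.Quotient.mk (((deckM δ) ^ j) m) := by
  induction j generalizing m with
  | zero => simp
  | succ j ih => rw [pow_succ, Module.End.mul_apply, deckB_mk, ih, pow_succ, Module.End.mul_apply]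

theorem deckB_pow_ord : h.deckB ^ q = 1 := by
  refine LinearMap.ext fun b => ?_
  induction b using Submodule.Quotient.induction_on with
  | _ m =>
    rw [deckB_pow_mk, Module.End.one_apply]
    congr 1
    funext x
    rw [deckM_pow_apply, h.ord]
    rfl

/-- **corestriction is onto** -/
theorem pushB_surjective : Function.Surjective (pushB π) := by
  intro b
  induction b using Submodule.Quotient.induction_on with
  | _ m =>
    obtain ⟨m', rfl⟩ := h.pushM_surjective m
    exact ⟨Submodule.Quotient.mk m', rfl⟩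

theorem pushB_deckB (b' : BQ D') : pushB π (h.deckB b') = pushB π b' := by
  induction b' using Submodule.Quotient.induction_on with
  | _ m => rw [deckB_mk, pushB_mk, pushB_mk, h.pushM_deckM]

/-- **the kernel of corestriction is `(δ - 1) B'`** -/
theorem pushB_eq_zero_iff (b' : BQ D') :
    pushB π b' = 0 ↔ ∃ b'' : BQ D', b' = h.deckB b'' - b'' := by
  constructor
  · intro hb
    induction b' using Submodule.Quotient.induction_on with
    | _ m' =>
      rw [pushB_mk, Submodule.Quotient.mk_eq_zero] at hb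
      obtain ⟨f, hf, hfm⟩ := h.exists_cSub_lift hb
      have hker : pushM π.toFun (m' - f) = 0 := by rw [map_sub, hfm, sub_self]
      obtain ⟨n', hn'⟩ := h.exists_of_pushM_eq_zero hker
      refine ⟨Submodule.Quotient.mk n', ?_⟩
      rw [deckB_mk, ← Submodule.Quotient.mk_sub, ← hn', Submodule.Quotient.mk_sub,
        (Submodule.Quotient.mk_eq_zero _).2 hf, sub_zero]
  · rintro ⟨b'', rfl⟩
    rw [map_sub, h.pushB_deckB, sub_self]

/-- **`res ∘ cores = Norm`** -/
theorem pullB_pushB (b' : BQ D') :
    pullB π (pushB π b') = ∑ j ∈ Finset.range q, (h.deckB ^ j) b' := by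
  induction b' using Submodule.Quotient.induction_on with
  | _ m' =>
    rw [pushB_mk, pullB_mk]
    simp_rw [deckB_pow_mk]
    have hsum : (∑ j ∈ Finset.range q, (Submodule.Quotient.mk (((deckM δ) ^ j) m') : BQ D')) =
        Submodule.Quotient.mk (∑ j ∈ Finset.range q, ((deckM δ) ^ j) m') := by
      rw [← Submodule.mkQ_apply, map_sum]
      rfl
    rw [hsum]
    congr 1
    funext x
    rw [pullM_apply, h.pushM_apply_proj, Finset.sum_apply]
    refine Finset.sum_congr rfl fun j _ => ?_
    rw [deckM_pow_apply]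

/-- `cores ∘ res = q` -/
theorem pushB_pullB_eq (b : BQ D) : pushB π (pullB π b) = (q : ℤ) • b :=
  pushB_pullB π q h.card_fibre b

/-- **restriction is injective** (`H¹(Γ,ℤ)` is torsion free) -/
theorem pullB_injective : Function.Injective (pullB π) := by
  rw [injective_iff_map_eq_zero]
  intro b hb
  have h1 := h.pushB_pullB_eq b
  rw [hb, map_zero] at h1
  have hq : (q : ℤ) ≠ 0 := by exact_mod_cast h.q_pos.ne'
  exact (smul_eq_zero.1 h1.symm).resolve_left hq

/-- **`Ĥ⁻¹ = 0`**: the kernel of the norm is `(δ - 1) B'`. -/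
theorem norm_eq_zero_iff (b' : BQ D') :
    ∑ j ∈ Finset.range q, (h.deckB ^ j) b' = 0 ↔ ∃ b'' : BQ D', b' = h.deckB b'' - b'' := by
  rw [← h.pullB_pushB, ← h.pushB_eq_zero_iff]
  constructor
  · intro h0
    exact h.pullB_injective (h0.trans (map_zero _).symm)
  · intro h0
    rw [h0, map_zero]

end DeckCyc3

/-- a `DeckCyc` (order prime to `6`) is a `DeckCyc3`. -/
theorem DeckCyc3.of_deckCyc {π : SUHom D' D} {δ : Equiv.Perm X'} {q : ℕ} (h : DeckCyc π δ q) :
    DeckCyc3 π δ q :=
  ⟨h.surj, h.comm_S, h.comm_U, h.fib, h.orb, h.ord, h.free, h.odd, Or.inl h.not3⟩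

end Fermat.Agent.GE8.CaseB3.TorsorModel3
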