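/-
GATE-E (S59) / block E8.3c = CASE B at `p = 3` (helper24; claims row GE8-3C-NOT3-CORE), file 2.

Twin of `GB/B3/CoresModel.lean` (helper95) on `TorsorModel3.DeckCyc3`: **corestriction along a cyclic
quotient of ODD order `q` is onto with kernel `(D - 1)`** for `Hom(-, A)`, `A` torsion free, as soon
as `3 ∤ q` OR `Γ` contains no conjugate of `U = S T` (`CycQuot3`; the second alternative holds for
`Γ ≤ Γ₀(N)` with a prime `r ≡ 2 (3)` dividing `N`: `UFree.lean`).  So `q = 3^n` is allowed.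

* `CycQuot3.deckCyc3`, `conjHom`, `bridgeB_deckB`, `cores_int_surjective`, `cores_int_eq_zero`;
* `cores_surjective`, `cores_eq_zero` : the binders `cores_surj`, `ker_cores` of `FreeCyclic.CycStep`;
* `CycQuot3.of_cycQuot`.
Proofs = helper95's file verbatim (only the `U`-field of the deck data is new).
-/
import Mathlib
import Fermat.Agent.GM.Bridge.ResCores
import Fermat.Agent.GB.B3.TorsorModel
import Fermat.Agent.GB.B3.HomBase
import Fermat.Agent.GB.B3.CoresModel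
import Fermat.Agent.GE8.CaseB3.TorsorModel3

set_option autoImplicit false
set_option linter.unusedSectionVars false
set_option linter.style.haveILetI false

open scoped MatrixGroups
open ModularGroup

namespace Fermat.Agent.GE8.CaseB3.CoresModel3

open Fermat.Agent.GM.PD Fermat.Agent.S16.LB.PingPong Fermat.Agent.S16.LB.PPLift
open Fermat.Agent.GM.Bridge Fermat.Agent.GM.B Fermat.Agent.GB.B3.TorsorModel
  Fermat.Agent.GE8.CaseB3.TorsorModel3 Fermat.Agent.GB.B3.CoresModel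

/-- **Cyclic quotient data, `3 ∣ q` allowed** `Γ' ◁ Γ ≤ SL(2,ℤ)`, `Γ = ⟨g₀⟩ Γ'`, `g₀` of exact ODD
order `q` modulo `Γ'`, `-1 ∈ Γ'`; either `q` is prime to `3` or `Γ` contains no conjugate of
`U = S T` (no elliptic point of order `3`). -/
structure CycQuot3 (Γ' Γ : Subgroup SL(2,ℤ)) (g₀ : SL(2,ℤ)) (q : ℕ) : Prop where
  le : Γ' ≤ Γ
  neg : (-1 : SL(2,ℤ)) ∈ Γ'
  g_mem : g₀ ∈ Γ
  normal : ∀ γ ∈ Γ, ∀ h ∈ Γ', γ * h * γ⁻¹ ∈ Γ'
  gen : ∀ γ ∈ Γ, ∃ j : ℕ, γ * g₀ ^ j ∈ Γ'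
  pow_mem : g₀ ^ q ∈ Γ'
  free : ∀ j : ℕ, 0 < j → j < q → g₀ ^ j ∉ Γ'
  odd : ¬ 2 ∣ q
  hU3 : ¬ 3 ∣ q ∨ ∀ g : SL(2,ℤ), g⁻¹ * (S * T) * g ∉ Γ

variable {Γ' Γ : Subgroup SL(2,ℤ)} {g₀ : SL(2,ℤ)} {q : ℕ}

namespace CycQuot3

variable (H : CycQuot3 Γ' Γ g₀ q)
include H

theorem conj_mem {h : SL(2,ℤ)} (hh : h ∈ Γ') : g₀⁻¹ * h * g₀ ∈ Γ' := by
  have := H.normal g₀⁻¹ (Γ.inv_mem H.g_mem) h hh
  rwa [inv_inv] at this

theorem conj_mem' {h : SL(2,ℤ)} (hh : h ∈ Γ') : g₀ * h * g₀⁻¹ ∈ Γ' :=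
  H.normal g₀ H.g_mem h hh

/-- right multiplication by `g₀` on `SL(2,ℤ) ⧸ Γ'` -/
def deckFun (x : SL(2,ℤ) ⧸ Γ') : SL(2,ℤ) ⧸ Γ' :=
  Quotient.map' (fun g => g * g₀) (by
    intro a b hab
    rw [QuotientGroup.leftRel_apply] at hab ⊢
    have h1 := H.conj_mem hab
    have h2 : (a * g₀)⁻¹ * (b * g₀) = g₀⁻¹ * (a⁻¹ * b) * g₀ := by group
    rw [h2]
    exact h1) x

/-- right multiplication by `g₀⁻¹` -/
def deckInv (x : SL(2,ℤ) ⧸ Γ') : SL(2,ℤ) ⧸ Γ' :=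
  Quotient.map' (fun g => g * g₀⁻¹) (by
    intro a b hab
    rw [QuotientGroup.leftRel_apply] at hab ⊢
    have h1 := H.conj_mem' hab
    have h2 : (a * g₀⁻¹)⁻¹ * (b * g₀⁻¹) = g₀ * (a⁻¹ * b) * g₀⁻¹ := by group
    rw [h2]
    exact h1) x

theorem deckFun_mk (g : SL(2,ℤ)) :
    H.deckFun (g : SL(2,ℤ) ⧸ Γ') = ((g * g₀ : SL(2,ℤ)) : SL(2,ℤ) ⧸ Γ') := rfl

theorem deckInv_mk (g : SL(2,ℤ)) :
    H.deckInv (g : SL(2,ℤ) ⧸ Γ') = ((g * g₀⁻¹ : SL(2,ℤ)) : SL(2,ℤ) ⧸ Γ') := rfl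

/-- the deck permutation: right multiplication by `g₀` -/
def deck : Equiv.Perm (SL(2,ℤ) ⧸ Γ') where
  toFun := H.deckFun
  invFun := H.deckInv
  left_inv := by
    intro x
    induction x using QuotientGroup.induction_on with
    | H g => rw [deckFun_mk, deckInv_mk, mul_inv_cancel_right]
  right_inv := by
    intro x
    induction x using QuotientGroup.induction_on with
    | H g => rw [deckInv_mk, deckFun_mk, inv_mul_cancel_right]

theorem deck_mk (g : SL(2,ℤ)) :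
    H.deck (g : SL(2,ℤ) ⧸ Γ') = ((g * g₀ : SL(2,ℤ)) : SL(2,ℤ) ⧸ Γ') := rfl

theorem deck_pow_mk (j : ℕ) (g : SL(2,ℤ)) :
    (H.deck ^ j) (g : SL(2,ℤ) ⧸ Γ') = ((g * g₀ ^ j : SL(2,ℤ)) : SL(2,ℤ) ⧸ Γ') := by
  induction j generalizing g with
  | zero => simp
  | succ j ih => rw [pow_succ, Equiv.Perm.mul_apply, deck_mk, ih, pow_succ', mul_assoc]

theorem deck_smul (s : SL(2,ℤ)) (x : SL(2,ℤ) ⧸ Γ') : H.deck (s • x) = s • H.deck x := by
  induction x using QuotientGroup.induction_on with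
  | H g => rw [smul_mk, deck_mk, deck_mk, smul_mk, mul_assoc]

variable [Fintype (SL(2,ℤ) ⧸ Γ')] [DecidableEq (SL(2,ℤ) ⧸ Γ')]
  [Fintype (SL(2,ℤ) ⧸ Γ)] [DecidableEq (SL(2,ℤ) ⧸ Γ)]

/-- **the deck data of the cyclic quotient** -/
theorem deckCyc3 : DeckCyc3 (suHom H.le H.neg) H.deck q where
  surj := by
    intro x
    induction x using QuotientGroup.induction_on with
    | H g => exact ⟨(g : SL(2,ℤ) ⧸ Γ'), rfl⟩
  comm_S := fun x => H.deck_smul S x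
  comm_U := fun x => H.deck_smul (S * T) x
  fib := by
    intro x
    induction x using QuotientGroup.induction_on with
    | H g =>
      rw [deck_mk, suHom_toFun, proj_mk, proj_mk, mk_eq_mk_iff]
      have h2 : (g * g₀)⁻¹ * g = g₀⁻¹ := by group
      rw [h2]
      exact Γ.inv_mem H.g_mem
  orb := by
    intro x y hxy
    induction x using QuotientGroup.induction_on with
    | H g =>
      induction y using QuotientGroup.induction_on with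
      | H g' =>
        rw [suHom_toFun, proj_mk, proj_mk, mk_eq_mk_iff] at hxy
        -- `g⁻¹ g' ∈ Γ`; `(g⁻¹ g')⁻¹ * g₀^j ∈ Γ'`
        obtain ⟨j, hj⟩ := H.gen _ (Γ.inv_mem hxy)
        refine ⟨j, ?_⟩
        rw [deck_pow_mk, mk_eq_mk_iff]
        have h1 := Γ'.inv_mem hj
        have h2 : (g * g₀ ^ j)⁻¹ * g' = ((g⁻¹ * g')⁻¹ * g₀ ^ j)⁻¹ := by group
        rw [h2]
        exact h1
  ord := by
    refine Equiv.ext fun x => ?_
    induction x using QuotientGroup.induction_on with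
    | H g =>
      rw [deck_pow_mk, Equiv.Perm.one_apply, mk_eq_mk_iff]
      have h2 : (g * g₀ ^ q)⁻¹ * g = (g₀ ^ q)⁻¹ := by group
      rw [h2]
      exact Γ'.inv_mem H.pow_mem
  free := by
    intro x j hj hjq hx
    induction x using QuotientGroup.induction_on with
    | H g =>
      rw [deck_pow_mk, mk_eq_mk_iff] at hx
      have h2 : (g * g₀ ^ j)⁻¹ * g = (g₀ ^ j)⁻¹ := by group
      rw [h2] at hx
      exact H.free j hj hjq (by simpa using Γ'.inv_mem hx)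
  odd := H.odd
  hU3 := by
    refine H.hU3.imp id (fun hf x => ?_)
    induction x using QuotientGroup.induction_on with
    | H g =>
      intro hx
      have hx' : ((S * T * g : SL(2,ℤ)) : SL(2,ℤ) ⧸ Γ) = (g : SL(2,ℤ) ⧸ Γ) := hx
      rw [mk_eq_mk_iff] at hx'
      have h2 : g⁻¹ * (S * T) * g = ((S * T * g)⁻¹ * g)⁻¹ := by group
      exact hf g (by rw [h2]; exact Γ.inv_mem hx')

/-! ### conjugation by `g₀` on `Hom(Γ', A)` and the bridge -/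

omit [Fintype (SL(2,ℤ) ⧸ Γ')] [DecidableEq (SL(2,ℤ) ⧸ Γ')]
  [Fintype (SL(2,ℤ) ⧸ Γ)] [DecidableEq (SL(2,ℤ) ⧸ Γ)] in
/-- `h ↦ g₀⁻¹ h g₀` on `Γ'` -/
def conjMul : Γ' →* Γ' where
  toFun h := ⟨g₀⁻¹ * (h : SL(2,ℤ)) * g₀, H.conj_mem h.2⟩
  map_one' := by
    apply Subtype.ext
    simp
  map_mul' a b := by
    apply Subtype.ext
    simp only [Subgroup.coe_mul]
    group

omit [Fintype (SL(2,ℤ) ⧸ Γ')] [DecidableEq (SL(2,ℤ) ⧸ Γ')]
  [Fintype (SL(2,ℤ) ⧸ Γ)] [DecidableEq (SL(2,ℤ) ⧸ Γ)] in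
/-- **the diamond operator**: `(conjHom φ)(h) = φ (g₀⁻¹ h g₀)` -/
def conjHom (A : Type*) [AddCommGroup A] : (Additive Γ' →+ A) →+ (Additive Γ' →+ A) where
  toFun φ := φ.comp (MonoidHom.toAdditive H.conjMul)
  map_zero' := rfl
  map_add' _ _ := rfl

omit [Fintype (SL(2,ℤ) ⧸ Γ')] [DecidableEq (SL(2,ℤ) ⧸ Γ')]
  [Fintype (SL(2,ℤ) ⧸ Γ)] [DecidableEq (SL(2,ℤ) ⧸ Γ)] in
theorem conjHom_apply {A : Type*} [AddCommGroup A] (φ : Additive Γ' →+ A) (h : Γ') :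
    H.conjHom A φ (Additive.ofMul h)
      = φ (Additive.ofMul (⟨g₀⁻¹ * (h : SL(2,ℤ)) * g₀, H.conj_mem h.2⟩ : Γ')) := rfl

omit [Fintype (SL(2,ℤ) ⧸ Γ')] [DecidableEq (SL(2,ℤ) ⧸ Γ')]
  [Fintype (SL(2,ℤ) ⧸ Γ)] [DecidableEq (SL(2,ℤ) ⧸ Γ)] in
/-- the cocycle of `m ∘ δ` -/
theorem cocOf_deckM (m : SL(2,ℤ) ⧸ Γ' → ℤ) :
    cocOf H.neg (deckM H.deck m) = fun g x => cocOf H.neg m g (H.deck x) := by
  have hc := isCoc_cocOf H.neg m
  refine IsCoc.ext (isCoc_cocOf H.neg _) ?_ ?_ ?_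
  · intro g' g x
    show cocOf H.neg m (g' * g) (H.deck x) = cocOf H.neg m g (H.deck x)
      + cocOf H.neg m g' (H.deck (g • x))
    rw [hc g' g (H.deck x), H.deck_smul]
  · rw [cocOf_S]
    funext x
    show aOf (deckM H.deck m) x = cocOf H.neg m S (H.deck x)
    rw [cocOf_S]
    simp only [aOf, deckM_apply, H.deck_smul]
  · rw [cocOf_U]
    funext x
    show (0 : ℤ) = cocOf H.neg m (S * T) (H.deck x)
    rw [cocOf_U]
    rfl

omit [Fintype (SL(2,ℤ) ⧸ Γ')] [DecidableEq (SL(2,ℤ) ⧸ Γ')]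
  [Fintype (SL(2,ℤ) ⧸ Γ)] [DecidableEq (SL(2,ℤ) ⧸ Γ)] in
/-- **the bridge intertwines the deck action with conjugation** (on functions) -/
theorem bridgeFun_deckM (m : SL(2,ℤ) ⧸ Γ' → ℤ) :
    bridgeFun H.neg (deckM H.deck m) = H.conjHom ℤ (bridgeFun H.neg m) := by
  refine DFunLike.ext _ _ fun h' => ?_
  obtain ⟨h, rfl⟩ : ∃ h : Γ', Additive.ofMul h = h' := ⟨Additive.toMul h', rfl⟩
  rw [bridgeFun_apply, conjHom_apply, bridgeFun_apply, H.cocOf_deckM]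
  have hc := isCoc_cocOf H.neg m
  set c := cocOf H.neg m with hcdef
  show c (h : SL(2,ℤ)) (H.deck (x0 Γ')) = c (g₀⁻¹ * (h : SL(2,ℤ)) * g₀) (x0 Γ')
  have hx : H.deck (x0 Γ') = g₀ • x0 Γ' := by
    rw [x0, deck_mk, smul_mk, one_mul, mul_one]
  rw [hx]
  have e1 := hc (h : SL(2,ℤ)) g₀ (x0 Γ')
  have e2 := hc g₀ (g₀⁻¹ * (h : SL(2,ℤ)) * g₀) (x0 Γ')
  rw [smul_x0_of_mem (H.conj_mem h.2)] at e2
  have e3 : g₀ * (g₀⁻¹ * (h : SL(2,ℤ)) * g₀) = (h : SL(2,ℤ)) * g₀ := by group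
  rw [e3] at e2
  rw [e1] at e2
  linarith

/-- **the bridge intertwines the deck action with conjugation** -/
theorem bridgeB_deckB (b : BQ (suData Γ' H.neg)) :
    bridgeB H.neg (H.deckCyc3.deckB b) = H.conjHom ℤ (bridgeB H.neg b) := by
  induction b using Submodule.Quotient.induction_on with
  | _ m => rw [DeckCyc3.deckB_mk, bridgeB_mk, bridgeB_mk, H.bridgeFun_deckM]

/-! ### corestriction on `Hom(-, ℤ)` -/

section Cores

variable {G : Type*} [Group G] {emb : SL(2,ℤ) →* G} (hemb : Function.Injective emb)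
  (Sy : CosetSys emb Γ' Γ) [Nonempty Sy.ι] (r : Sy.ι → SL(2,ℤ))
  (hra : ∀ i, Sy.a i = emb (r i)) (hr : ∀ i, r i ∈ Γ)
  (hdist : ∀ i j, r i * (r j)⁻¹ ∈ Γ' → i = j)

include hemb hra hr hdist

/-- **(i-surj) over `ℤ`**: corestriction `Hom(Γ',ℤ) → Hom(Γ,ℤ)` is onto. -/
theorem cores_int_surjective : Function.Surjective (Sy.op ℤ) := by
  intro ψ
  obtain ⟨b', hb'⟩ := H.deckCyc3.pushB_surjective ((bridgeB (H.le H.neg)).symm ψ)
  refine ⟨bridgeB H.neg b', ?_⟩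
  rw [← bridgeB_pushB_cosetSys H.le H.neg hemb Sy r hra hr hdist b', hb',
    LinearEquiv.apply_symm_apply]

/-- **(i-ker) over `ℤ`**: the kernel of corestriction is `(D - 1) Hom(Γ',ℤ)`. -/
theorem cores_int_eq_zero {φ : Additive Γ' →+ ℤ} (hφ : Sy.op ℤ φ = 0) :
    ∃ θ : Additive Γ' →+ ℤ, φ = H.conjHom ℤ θ - θ := by
  obtain ⟨b', rfl⟩ := (bridgeB H.neg).surjective φ
  rw [← bridgeB_pushB_cosetSys H.le H.neg hemb Sy r hra hr hdist b'] at hφ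
  have h0 : pushB (suHom H.le H.neg) b' = 0 :=
    (bridgeB (H.le H.neg)).injective (hφ.trans (map_zero _).symm)
  obtain ⟨b'', hb''⟩ := (H.deckCyc3.pushB_eq_zero_iff b').mp h0
  refine ⟨bridgeB H.neg b'', ?_⟩
  rw [hb'', map_sub, H.bridgeB_deckB]

end Cores

end CycQuot3

/-! ### transfer to torsion-free coefficients -/

section Transfer

open Fermat.Agent.GB.B3.HomBase

variable [Fintype (SL(2,ℤ) ⧸ Γ')] [DecidableEq (SL(2,ℤ) ⧸ Γ')]
  [Fintype (SL(2,ℤ) ⧸ Γ)] [DecidableEq (SL(2,ℤ) ⧸ Γ)]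
variable (H : CycQuot3 Γ' Γ g₀ q)
variable {G : Type*} [Group G] {emb : SL(2,ℤ) →* G} (hemb : Function.Injective emb)
  (Sy : CosetSys emb Γ' Γ) [Nonempty Sy.ι] (r : Sy.ι → SL(2,ℤ))
  (hra : ∀ i, Sy.a i = emb (r i)) (hr : ∀ i, r i ∈ Γ)
  (hdist : ∀ i j, r i * (r j)⁻¹ ∈ Γ' → i = j)
variable (A : Type*) [AddCommGroup A] [Module.IsTorsionFree ℤ A]

include H hemb hra hr hdist

/-- **(i-surj)**: corestriction `Hom(Γ',A) → Hom(Γ,A)` is onto, `A` torsion free. -/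
theorem cores_surjective : Function.Surjective (Sy.op A) := by
  haveI : Γ.FiniteIndex := Subgroup.finiteIndex_of_finite_quotient
  intro ψ
  obtain ⟨n, a, ψi, -, hψ⟩ := exists_decomp ψ
  choose θ hθ using fun i => H.cores_int_surjective hemb Sy r hra hr hdist (ψi i)
  refine ⟨∑ i, (smulHom (a i)).comp (θ i), ?_⟩
  rw [map_sum, hψ]
  refine Finset.sum_congr rfl fun i _ => ?_
  rw [Sy.op_comp_hom, hθ]

/-- **(i-ker)**: the kernel of corestriction is `(D - 1) Hom(Γ',A)`, `A` torsion free. -/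
theorem cores_eq_zero {φ : Additive Γ' →+ A} (hφ : Sy.op A φ = 0) :
    ∃ θ : Additive Γ' →+ A, φ = H.conjHom A θ - θ := by
  haveI : Γ'.FiniteIndex := Subgroup.finiteIndex_of_finite_quotient
  obtain ⟨n, a, φi, ha, hφd⟩ := exists_decomp φ
  have h1 : ∀ i, Sy.op ℤ (φi i) = 0 := by
    intro i
    refine AddMonoidHom.ext fun γ => ?_
    have h2 : ∑ j, (Sy.op ℤ (φi j) γ) • a j = 0 := by
      have h3 := DFunLike.congr_fun hφ γ
      rw [hφd, map_sum, AddMonoidHom.finsetSum_apply, AddMonoidHom.zero_apply] at h3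
      rw [← h3]
      refine Finset.sum_congr rfl fun j _ => ?_
      rw [Sy.op_comp_hom]
      rfl
    exact (Fintype.linearIndependent_iff.mp ha) (fun j => Sy.op ℤ (φi j) γ) h2 i
  choose θ hθ using fun i => H.cores_int_eq_zero hemb Sy r hra hr hdist (h1 i)
  refine ⟨∑ i, (smulHom (a i)).comp (θ i), ?_⟩
  rw [hφd, map_sum, ← Finset.sum_sub_distrib]
  refine Finset.sum_congr rfl fun i _ => ?_
  rw [hθ i]
  refine AddMonoidHom.ext fun h => ?_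
  simp only [AddMonoidHom.comp_apply, AddMonoidHom.sub_apply, map_sub]
  rfl

end Transfer

/-- a `CycQuot` (order prime to `6`) is a `CycQuot3`. -/
theorem CycQuot3.of_cycQuot {Γ' Γ : Subgroup SL(2,ℤ)} {g₀ : SL(2,ℤ)} {q : ℕ}
    (H : CycQuot Γ' Γ g₀ q) : CycQuot3 Γ' Γ g₀ q :=
  ⟨H.le, H.neg, H.g_mem, H.normal, H.gen, H.pow_mem, H.free, H.odd, Or.inl H.not3⟩

end Fermat.Agent.GE8.CaseB3.CoresModel3
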