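/-
GATE-E (S59) / block E8.3c = CASE B at `p = 3` (helper24; claims row GE8-3C-NOT3-CORE), file 3.

Twins of `GB/B3/CycPlug.lean` (helper95) and `GB/B3/CycPlug2.lean` (helper2) on `CoresModel3.CycQuot3`:
the model binders of `CycInst.cycStep` / `cycStepKK` for `χ : Γ →* Δ`, cyclic step of ODD order `q`,
with the binder `h3 : ¬ 3 ∣ q` weakened to

  `h3 : ¬ 3 ∣ q ∨ ∀ g : SL(2,ℤ), g⁻¹ * (S * T) * g ∉ Γ`   (`Γ` = the AMBIENT group, e.g. `Γ₀(N)`)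

(no conjugate of `U = S T` in `Γ`: `UFree.lean` for `Γ ≤ Γ₀(N)`, `r ∣ N` prime, `r ≡ 2 (3)`), so that
`q = 3^n` is allowed: `coresK_op_surjective3`, `coresK_op_eq_zero3`, `cycStepSL3`,
`coresKK_op_surjective3`, `coresKK_op_eq_zero3`, `cycStepKKSL3`.  Proofs verbatim.
-/
import Mathlib
import Fermat.Agent.GB.B3.CycPlug2
import Fermat.Agent.GE8.CaseB3.CoresModel3

set_option autoImplicit false
set_option linter.unusedSectionVars false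
set_option linter.style.haveILetI false

open scoped MatrixGroups

namespace Fermat.Agent.GE8.CaseB3.CycPlug3

open Fermat.Agent.GM.B Fermat.Agent.GB.B3 Fermat.Agent.GB.B3.CoresModel
  Fermat.Agent.GB.B3.FreeCyclic Fermat.Agent.GB.B3.CycInst Fermat.Agent.GB.B3.CycPlug
  Fermat.Agent.GE8.CaseB3.CoresModel3

/-! ### absolute form (twin of `CycPlug`) -/

section Abs

variable {G : Type*} [Group G] {emb : SL(2,ℤ) →* G}
variable {Γ : Subgroup SL(2,ℤ)} {Δ : Type} [CommGroup Δ] [Fintype Δ]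

variable (χ : Γ →* Δ) (r : Δ → Γ) (hr : ∀ δ, χ (r δ) = δ) (q : ℕ) (d0 : Γ)

include hr in
/-- the cyclic quotient data of `χ` -/
theorem cycQuot3 (hord : orderOf (χ d0) = q) (hcard : Fintype.card Δ = q)
    (hneg : (-1 : SL(2,ℤ)) ∈ kerSub χ) (h2 : ¬ 2 ∣ q) (h3 : ¬ 3 ∣ q ∨ ∀ g : SL(2,ℤ), g⁻¹ * (ModularGroup.S * ModularGroup.T) * g ∉ Γ) :
    CycQuot3 (kerSub χ) Γ ((d0⁻¹ : Γ) : SL(2,ℤ)) q where
  le := kerSub_le χ
  neg := hneg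
  g_mem := (d0⁻¹ : Γ).2
  normal := by
    rintro γ hγ _ ⟨g, hg, rfl⟩
    have h1 : γ * (Γ.subtype g) * γ⁻¹ = (((⟨γ, hγ⟩ : Γ) * g * (⟨γ, hγ⟩ : Γ)⁻¹ : Γ) : SL(2,ℤ)) := rfl
    rw [h1, coe_mem_kerSub_iff, map_mul, map_mul, map_inv]
    have hg' : χ g = 1 := hg
    rw [hg', mul_one, mul_inv_cancel]
  gen := by
    intro γ hγ
    obtain ⟨i, hi⟩ := (pow_bijective χ q d0 hord hcard).2 (χ ⟨γ, hγ⟩)
    refine ⟨(i : ℕ), ?_⟩
    have h1 : γ * ((d0⁻¹ : Γ) : SL(2,ℤ)) ^ (i : ℕ) = (((⟨γ, hγ⟩ : Γ) * (d0⁻¹) ^ (i : ℕ) : Γ) : SL(2,ℤ)) := rfl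
    rw [h1, coe_mem_kerSub_iff, map_mul, map_pow, map_inv, ← hi, inv_pow, mul_inv_cancel]
  pow_mem := by
    have h1 : ((d0⁻¹ : Γ) : SL(2,ℤ)) ^ q = (((d0⁻¹) ^ q : Γ) : SL(2,ℤ)) := rfl
    rw [h1, coe_mem_kerSub_iff, map_pow, map_inv, inv_pow, ← hord, pow_orderOf_eq_one, inv_one]
  free := by
    intro j hj hjq hmem
    have h1 : ((d0⁻¹ : Γ) : SL(2,ℤ)) ^ j = (((d0⁻¹) ^ j : Γ) : SL(2,ℤ)) := rfl
    rw [h1, coe_mem_kerSub_iff, map_pow, map_inv, inv_pow, inv_eq_one] at hmem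
    have := orderOf_dvd_of_pow_eq_one hmem
    rw [hord] at this
    exact absurd (Nat.le_of_dvd hj this) (by omega)
  odd := h2
  hU3 := h3

variable [Fintype (SL(2,ℤ) ⧸ Γ)] [DecidableEq (SL(2,ℤ) ⧸ Γ)]
  [Fintype (SL(2,ℤ) ⧸ kerSub χ)] [DecidableEq (SL(2,ℤ) ⧸ kerSub χ)]
variable (hemb : Function.Injective emb)
variable (O : Type*) [AddCommGroup O] [Module.IsTorsionFree ℤ O]

include hemb in
/-- **`cores` is onto** -/
theorem coresK_op_surjective3 (hord : orderOf (χ d0) = q) (hcard : Fintype.card Δ = q)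
    (hneg : (-1 : SL(2,ℤ)) ∈ kerSub χ) (h2 : ¬ 2 ∣ q) (h3 : ¬ 3 ∣ q ∨ ∀ g : SL(2,ℤ), g⁻¹ * (ModularGroup.S * ModularGroup.T) * g ∉ Γ) :
    Function.Surjective ((coresK χ r hr emb).op O) := by
  have H := cycQuot3 χ r hr q d0 hord hcard hneg h2 h3
  haveI : Nonempty (coresK χ r hr emb).ι := ⟨(1 : Δ)⟩
  refine cores_surjective H hemb (coresK χ r hr emb) (fun δ : Δ => ((r δ : Γ) : SL(2,ℤ)))
    (fun _ => rfl) (fun δ => (r δ).2) ?_ O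
  intro δ δ' hmem
  have h1 : ((r δ : Γ) : SL(2,ℤ)) * ((r δ' : Γ) : SL(2,ℤ))⁻¹ = ((r δ * (r δ')⁻¹ : Γ) : SL(2,ℤ)) := rfl
  rw [h1, coe_mem_kerSub_iff, map_mul, map_inv, mul_inv_eq_one] at hmem
  exact (hr δ).symm.trans (hmem.trans (hr δ'))

include hemb in
/-- **the kernel of `cores` is `(⟨d0⟩ - 1)`** -/
theorem coresK_op_eq_zero3 (hord : orderOf (χ d0) = q) (hcard : Fintype.card Δ = q)
    (hneg : (-1 : SL(2,ℤ)) ∈ kerSub χ) (h2 : ¬ 2 ∣ q) (h3 : ¬ 3 ∣ q ∨ ∀ g : SL(2,ℤ), g⁻¹ * (ModularGroup.S * ModularGroup.T) * g ∉ Γ)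
    (x : Additive (kerSub χ) →+ O) (hx : (coresK χ r hr emb).op O x = 0) :
    ∃ y : Additive (kerSub χ) →+ O, x = (diaK emb χ d0).op O y - y := by
  have H := cycQuot3 χ r hr q d0 hord hcard hneg h2 h3
  haveI : Nonempty (coresK χ r hr emb).ι := ⟨(1 : Δ)⟩
  obtain ⟨θ, hθ⟩ := cores_eq_zero H hemb (coresK χ r hr emb)
    (fun δ : Δ => ((r δ : Γ) : SL(2,ℤ))) (fun _ => rfl) (fun δ => (r δ).2) (by
      intro δ δ' hmem
      have h1 : ((r δ : Γ) : SL(2,ℤ)) * ((r δ' : Γ) : SL(2,ℤ))⁻¹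
          = ((r δ * (r δ')⁻¹ : Γ) : SL(2,ℤ)) := rfl
      rw [h1, coe_mem_kerSub_iff, map_mul, map_inv, mul_inv_eq_one] at hmem
      exact (hr δ).symm.trans (hmem.trans (hr δ'))) O hx
  refine ⟨θ, ?_⟩
  rw [hθ]
  congr 1
  refine AddMonoidHom.ext fun k => ?_
  obtain ⟨k, rfl⟩ : ∃ k' : kerSub χ, Additive.ofMul k' = k := ⟨Additive.toMul k, rfl⟩
  rw [CycQuot3.conjHom_apply, diaK_op_apply]
  congr 2
  apply Subtype.ext
  show (((d0⁻¹ : Γ) : SL(2,ℤ)))⁻¹ * (k : SL(2,ℤ)) * ((d0⁻¹ : Γ) : SL(2,ℤ))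
    = ((d0 * kerIncl χ k * d0⁻¹ : Γ) : SL(2,ℤ))
  simp

section Step1

variable {G : Type*} [Group G] {emb : SL(2,ℤ) →* G} (hemb : Function.Injective emb)
variable {Γ : Subgroup SL(2,ℤ)} {Δ : Type} [CommGroup Δ] [Fintype Δ]
variable (χ : Γ →* Δ) (r : Δ → Γ) (hr : ∀ δ, χ (r δ) = δ) (S : CosetSys emb Γ Γ) (h : Compat S χ)
variable [Fintype (SL(2,ℤ) ⧸ Γ)] [DecidableEq (SL(2,ℤ) ⧸ Γ)]
  [Fintype (SL(2,ℤ) ⧸ kerSub χ)] [DecidableEq (SL(2,ℤ) ⧸ kerSub χ)]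
variable (O : Type*) [CommRing O] [Module.IsTorsionFree ℤ O] (q : ℕ) (d0 : Γ)

/-- **helper46's cyclic step with NO model binder**, for subgroups of `SL(2,ℤ)`. -/
noncomputable def cycStepSL3 (hord : orderOf (χ d0) = q) (hcard : Fintype.card Δ = q)
    (hq : ∀ a : O, (q : O) * a = 0 → a = 0)
    (hneg : (-1 : SL(2,ℤ)) ∈ kerSub χ) (h2 : ¬ 2 ∣ q) (h3 : ¬ 3 ∣ q ∨ ∀ g : SL(2,ℤ), g⁻¹ * (ModularGroup.S * ModularGroup.T) * g ∉ Γ) :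
    CycStep O (Additive (kerSub χ) →+ O) (Additive Γ →+ O) q :=
  cycStep hemb χ r hr S h O q d0 hord hcard hq
    (coresK_op_surjective3 χ r hr q d0 hemb O hord hcard hneg h2 h3)
    (coresK_op_eq_zero3 χ r hr q d0 hemb O hord hcard hneg h2 h3)

end Step1


end Abs

/-! ### relative form (twin of `CycPlug2`) -/

section Rel

variable {G : Type*} [Group G] {emb : SL(2,ℤ) →* G}
variable {Γ : Subgroup SL(2,ℤ)} {Δ Δ'' : Type} [CommGroup Δ] [Group Δ'']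

variable (χ : Γ →* Δ) (π : Δ →* Δ'') [Fintype π.ker] (r : π.ker → Γ)
  (hr : ∀ δ : π.ker, χ (r δ) = (δ : Δ)) (q : ℕ) (d0 : Γ)

include hr in
/-- the cyclic quotient data of the two levels -/
theorem cycQuotKK3 (hd0 : χ d0 ∈ π.ker) (hord : orderOf (χ d0) = q)
    (hcard : Fintype.card π.ker = q)
    (hneg : (-1 : SL(2,ℤ)) ∈ kerSub χ) (h2 : ¬ 2 ∣ q) (h3 : ¬ 3 ∣ q ∨ ∀ g : SL(2,ℤ), g⁻¹ * (ModularGroup.S * ModularGroup.T) * g ∉ Γ) :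
    CycQuot3 (kerSub χ) (kerSub (π.comp χ)) ((d0⁻¹ : Γ) : SL(2,ℤ)) q where
  le := kerSub_le_comp χ π
  neg := hneg
  g_mem := by
    rw [coe_mem_kerSub_comp_iff, map_inv]
    exact π.ker.inv_mem hd0
  normal := by
    rintro _ ⟨γ, -, rfl⟩ _ ⟨g, hg, rfl⟩
    have h1 : Γ.subtype γ * (Γ.subtype g) * (Γ.subtype γ)⁻¹ = ((γ * g * γ⁻¹ : Γ) : SL(2,ℤ)) := rfl
    rw [h1, coe_mem_kerSub_iff', map_mul, map_mul, map_inv]
    have hg' : χ g = 1 := hg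
    rw [hg', mul_one, mul_inv_cancel]
  gen := by
    rintro _ ⟨γ, hγ, rfl⟩
    have hγ' : χ γ ∈ π.ker := hγ
    obtain ⟨i, hi⟩ := (pow_bijectiveKK χ π q d0 hd0 hord hcard).2 ⟨χ γ, hγ'⟩
    have hi' : χ d0 ^ (i : ℕ) = χ γ := congrArg Subtype.val hi
    refine ⟨(i : ℕ), ?_⟩
    have h1 : Γ.subtype γ * ((d0⁻¹ : Γ) : SL(2,ℤ)) ^ (i : ℕ)
        = ((γ * (d0⁻¹) ^ (i : ℕ) : Γ) : SL(2,ℤ)) := rfl
    rw [h1, coe_mem_kerSub_iff', map_mul, map_pow, map_inv, ← hi', inv_pow, mul_inv_cancel]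
  pow_mem := by
    have h1 : ((d0⁻¹ : Γ) : SL(2,ℤ)) ^ q = (((d0⁻¹) ^ q : Γ) : SL(2,ℤ)) := rfl
    rw [h1, coe_mem_kerSub_iff', map_pow, map_inv, inv_pow, ← hord, pow_orderOf_eq_one, inv_one]
  free := by
    intro j hj hjq hmem
    have h1 : ((d0⁻¹ : Γ) : SL(2,ℤ)) ^ j = (((d0⁻¹) ^ j : Γ) : SL(2,ℤ)) := rfl
    rw [h1, coe_mem_kerSub_iff', map_pow, map_inv, inv_pow, inv_eq_one] at hmem
    have := orderOf_dvd_of_pow_eq_one hmem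
    rw [hord] at this
    exact absurd (Nat.le_of_dvd hj this) (by omega)
  odd := h2
  hU3 := h3.imp id (fun hf g hg => hf g (kerSub_le (π.comp χ) hg))

variable [Fintype (SL(2,ℤ) ⧸ kerSub (π.comp χ))] [DecidableEq (SL(2,ℤ) ⧸ kerSub (π.comp χ))]
  [Fintype (SL(2,ℤ) ⧸ kerSub χ)] [DecidableEq (SL(2,ℤ) ⧸ kerSub χ)]
variable (hemb : Function.Injective emb)
variable (O : Type*) [AddCommGroup O] [Module.IsTorsionFree ℤ O]

include hemb in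
/-- **`cores` is onto** between two levels -/
theorem coresKK_op_surjective3 (hd0 : χ d0 ∈ π.ker) (hord : orderOf (χ d0) = q)
    (hcard : Fintype.card π.ker = q)
    (hneg : (-1 : SL(2,ℤ)) ∈ kerSub χ) (h2 : ¬ 2 ∣ q) (h3 : ¬ 3 ∣ q ∨ ∀ g : SL(2,ℤ), g⁻¹ * (ModularGroup.S * ModularGroup.T) * g ∉ Γ) :
    Function.Surjective ((coresKK χ π r hr emb).op O) := by
  have H := cycQuotKK3 χ π r hr q d0 hd0 hord hcard hneg h2 h3
  haveI : Nonempty (coresKK χ π r hr emb).ι := ⟨(1 : π.ker)⟩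
  exact cores_surjective H hemb (coresKK χ π r hr emb)
    (fun δ : π.ker => ((r δ : Γ) : SL(2,ℤ))) (fun _ => rfl) (rep_mem χ π r hr)
    (rep_distinct χ π r hr) O

include hemb in
/-- **the kernel of `cores` is `(⟨d0⟩ - 1)`** between two levels -/
theorem coresKK_op_eq_zero3 (hd0 : χ d0 ∈ π.ker) (hord : orderOf (χ d0) = q)
    (hcard : Fintype.card π.ker = q)
    (hneg : (-1 : SL(2,ℤ)) ∈ kerSub χ) (h2 : ¬ 2 ∣ q) (h3 : ¬ 3 ∣ q ∨ ∀ g : SL(2,ℤ), g⁻¹ * (ModularGroup.S * ModularGroup.T) * g ∉ Γ)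
    (x : Additive (kerSub χ) →+ O) (hx : (coresKK χ π r hr emb).op O x = 0) :
    ∃ y : Additive (kerSub χ) →+ O, x = (diaK emb χ d0).op O y - y := by
  have H := cycQuotKK3 χ π r hr q d0 hd0 hord hcard hneg h2 h3
  haveI : Nonempty (coresKK χ π r hr emb).ι := ⟨(1 : π.ker)⟩
  obtain ⟨θ, hθ⟩ := cores_eq_zero H hemb (coresKK χ π r hr emb)
    (fun δ : π.ker => ((r δ : Γ) : SL(2,ℤ))) (fun _ => rfl) (rep_mem χ π r hr)
    (rep_distinct χ π r hr) O hx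
  refine ⟨θ, ?_⟩
  rw [hθ]
  congr 1
  refine AddMonoidHom.ext fun k => ?_
  obtain ⟨k, rfl⟩ : ∃ k' : kerSub χ, Additive.ofMul k' = k := ⟨Additive.toMul k, rfl⟩
  rw [CycQuot3.conjHom_apply, diaK_op_apply]
  congr 2
  apply Subtype.ext
  show (((d0⁻¹ : Γ) : SL(2,ℤ)))⁻¹ * (k : SL(2,ℤ)) * ((d0⁻¹ : Γ) : SL(2,ℤ))
    = ((d0 * kerIncl χ k * d0⁻¹ : Γ) : SL(2,ℤ))
  simp

section Step2

variable {G : Type*} [Group G] {emb : SL(2,ℤ) →* G} (hemb : Function.Injective emb)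
variable {Γ : Subgroup SL(2,ℤ)} {Δ Δ'' : Type} [CommGroup Δ] [Group Δ'']
variable (χ : Γ →* Δ) (π : Δ →* Δ'') [Fintype π.ker] (r : π.ker → Γ)
  (hr : ∀ δ : π.ker, χ (r δ) = (δ : Δ)) (S : CosetSys emb Γ Γ) (h : Compat S χ)
variable [Fintype (SL(2,ℤ) ⧸ kerSub (π.comp χ))] [DecidableEq (SL(2,ℤ) ⧸ kerSub (π.comp χ))]
  [Fintype (SL(2,ℤ) ⧸ kerSub χ)] [DecidableEq (SL(2,ℤ) ⧸ kerSub χ)]
variable (O : Type*) [CommRing O] [Module.IsTorsionFree ℤ O] (q : ℕ) (d0 : Γ)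

/-- **the cyclic step between two levels with NO model binder**, for subgroups of `SL(2,ℤ)`. -/
noncomputable def cycStepKKSL3 (hd0 : χ d0 ∈ π.ker) (hord : orderOf (χ d0) = q)
    (hcard : Fintype.card π.ker = q)
    (hq : ∀ a : O, (q : O) * a = 0 → a = 0)
    (hneg : (-1 : SL(2,ℤ)) ∈ kerSub χ) (h2 : ¬ 2 ∣ q) (h3 : ¬ 3 ∣ q ∨ ∀ g : SL(2,ℤ), g⁻¹ * (ModularGroup.S * ModularGroup.T) * g ∉ Γ) :
    CycStep O (Additive (kerSub χ) →+ O) (Additive (kerSub (π.comp χ)) →+ O) q :=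
  cycStepKK hemb χ π r hr S h O q d0 hd0 hord hcard hq
    (coresKK_op_surjective3 χ π r hr q d0 hemb O hd0 hord hcard hneg h2 h3)
    (coresKK_op_eq_zero3 χ π r hr q d0 hemb O hd0 hord hcard hneg h2 h3)

end Step2


end Rel

end Fermat.Agent.GE8.CaseB3.CycPlug3
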